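import Fermat.Agent.RED.Spec.Specialization
import Fermat.Agent.RED.Reduction.Divisible

/-!
# `SpecializationExists` for `J₀(N)`

Divisibility of the degree zero classes over `ℚ̄` holds, so the good reduction specialisation with
the Eichler-Shimura relation exists for every level. Used by S37 and by `GR/ES/HasInput`.
-/

set_option autoImplicit false

noncomputable section

open ModularCurve

namespace Fermat.RED

/-- `J₀(N)` over `ℚ̄` is divisible. -/
theorem picDivisible_modularFunctionFieldBar (N : ℕ) [NeZero N] :
    PicDivisible (AlgebraicClosure ℚ) (modularFunctionFieldBar N) :=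
  fun _ hn x => exists_nsmul_eq_of_constExt (F := MC.FN N ℂ) hn x

/-- The specialisation with the Eichler–Shimura relation exists for `J₀(N)`. -/
theorem specializationExists (N p : ℕ) [NeZero N] (hcomm : HeckeOperatorsCommuteBar N) :
    letI := heckeModuleBar N
    ∀ (_ : SMulCommClass (AlgebraicClosure ℚ ≃ₐ[ℚ] AlgebraicClosure ℚ) HeckeAlg (JZero N)),
      SpecializationExists (K := ℚ) (L := AlgebraicClosure ℚ) N p (JZero N) :=
  specializationExists_of_divisible (picDivisible_modularFunctionFieldBar N) p hcomm

end Fermat.RED
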