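import Fermat.Agent.RED.Congruence.Frobenius
import Fermat.Prelude.Def_ModularCurve_ArithmeticGalois
import Fermat.Prelude.Def_EllipticCurve_FrobeniusTrace
import Fermat.Prelude.Def_FLTPrelim_Ramification

/-!
# The decomposition group acts on reductions through the residue field

The residual automorphism of a decomposition element, trivial on inertia and Frobenius at a
Frobenius element, and its compatibility with the coefficientwise action on expansions.
-/

set_option autoImplicit false

attribute [local instance 10000] SubalgebraClass.toAlgebra HahnSeries.powerSeriesAlgebra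

noncomputable section

open ModularCurve AlgebraicCurve

namespace Fermat.RED

variable {L : Type*} [Field L] [Algebra ℚ L] {A : ValuationSubring L} {σ : L ≃ₐ[ℚ] L}

/-- The automorphism of the residue field induced by an element of the decomposition group. -/
def residueAut (hσ : σ ∈ A.decompositionSubgroup ℚ) :
    IsLocalRing.ResidueField A ≃+* IsLocalRing.ResidueField A :=
  MulSemiringAction.toRingEquiv (A.decompositionSubgroup ℚ) _ ⟨σ, hσ⟩

/-- An element of the decomposition group acts on the valuation ring and induces `residueAut` on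
the residue field. -/
theorem exists_residue_conj (hσ : σ ∈ A.decompositionSubgroup ℚ) :
    ∃ σA : A →+* A, (∀ a : A, (σA a : L) = σ a) ∧
      ∀ a : A, IsLocalRing.residue A (σA a) = residueAut hσ (IsLocalRing.residue A a) :=
  ⟨MulSemiringAction.toRingHom (A.decompositionSubgroup ℚ) A ⟨σ, hσ⟩, fun _ => rfl,
    fun a => IsLocalRing.ResidueField.residue_smul _ (⟨σ, hσ⟩ : A.decompositionSubgroup ℚ) a⟩

/-- Inertia acts trivially on the residue field. -/
theorem residueAut_eq_refl (hσ : σ ∈ A.inertiaSubgroupIn ℚ) :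
    ∃ h : σ ∈ A.decompositionSubgroup ℚ, residueAut h = RingEquiv.refl _ := by
  obtain ⟨⟨s, hs⟩, hin, rfl⟩ := hσ
  exact ⟨hs, RingEquiv.ext fun x => RingEquiv.congr_fun hin x⟩

/-- An inertia element preserves integrality and residues. -/
theorem apply_mem_of_inertia (hσ : σ ∈ A.inertiaSubgroupIn ℚ) {c : L} (hc : c ∈ A) :
    ∃ h : σ c ∈ A, IsLocalRing.residue A ⟨σ c, h⟩ = IsLocalRing.residue A ⟨c, hc⟩ := by
  obtain ⟨hd, he⟩ := residueAut_eq_refl hσ
  obtain ⟨σA, h1, h2⟩ := exists_residue_conj hd
  refine ⟨h1 ⟨c, hc⟩ ▸ (σA ⟨c, hc⟩).2, ?_⟩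
  have h3 := h2 ⟨c, hc⟩
  rw [he, RingEquiv.refl_apply] at h3
  rw [← h3]
  exact congrArg _ (Subtype.ext (h1 ⟨c, hc⟩).symm)

/-- A Frobenius element acts on the residue field by `x ↦ x ^ ℓ`. -/
theorem residueAut_eq_frobenius {ℓ : ℕ} [Fact ℓ.Prime] [CharP (IsLocalRing.ResidueField A) ℓ]
    [PerfectRing (IsLocalRing.ResidueField A) ℓ] (hσ : A.IsFrobeniusAt σ ℓ) :
    residueAut hσ.mem_decompositionSubgroup = frobeniusEquiv (IsLocalRing.ResidueField A) ℓ :=
  RingEquiv.ext fun x => hσ.smul_residue_eq x

/-- Coefficientwise, `σ` on integral expansions is its residual automorphism on reductions. -/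
theorem intertwines_arithmeticGalois (F₀ : IntermediateField ℚ (LaurentSeries ℚ))
    {T : IntermediateField (IsLocalRing.ResidueField A)
      (LaurentSeries (IsLocalRing.ResidueField A))}
    (hσ : σ ∈ A.decompositionSubgroup ℚ)
    {τ : IsLocalRing.ResidueField A ≃+* IsLocalRing.ResidueField A}
    (hτ : residueAut hσ = τ) {g : SemilinearAut (IsLocalRing.ResidueField A) T}
    (hg : ∀ z : T, ((g • z : T) : LaurentSeries (IsLocalRing.ResidueField A)) =
      coeffMap (τ : IsLocalRing.ResidueField A →+* IsLocalRing.ResidueField A) z) :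
    IsSeriesReduction.Intertwines A (IsLocalRing.residue A) (laurentBaseChange L F₀) T
      (arithmeticGalois F₀ σ) g := by
  subst hτ
  obtain ⟨σA, h1, h2⟩ := exists_residue_conj hσ
  intro f y z hf hz
  refine ⟨coeffMap σA y, ?_, ?_⟩
  · rw [coe_arithmeticGalois_smul, hf, coeffMap_coeffMap, coeffMap_coeffMap]
    exact coeffMap_congr (RingHom.ext fun a => (h1 a).symm) y
  · rw [hg, hz, coeffMap_coeffMap, coeffMap_coeffMap]
    exact coeffMap_congr (RingHom.ext fun a => (h2 a).symm) y

end Fermat.RED
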