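import Fermat.Agent.RED.Reduction.X0
import Fermat.Agent.RED.Spec.Galois
import Fermat.Agent.RED.Congruence.X0
import Fermat.Prelude.Def_ModularCurve_HeckeModule

/-!
# Galois and `T_ℓ` on the reduction of `J₀(N)`

Reduction of divisor classes commutes with the decomposition group and carries `T_ℓ` to `ℓ F⁻¹ +
F`, the Eichler-Shimura congruence, given divisibility of `Pic⁰`.
-/

set_option autoImplicit false

attribute [local instance 10000] SubalgebraClass.toAlgebra HahnSeries.powerSeriesAlgebra

noncomputable section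

open ModularCurve AlgebraicCurve

namespace Fermat.RED

variable {N ℓ : ℕ} [NeZero N] {A : ValuationSubring (AlgebraicClosure ℚ)}

/-- The residue field at a place over `ℓ` has characteristic `ℓ`. -/
theorem charP_residue (hℓ : ℓ.Prime) (hA : A.LiesOverPrime ℓ) :
    CharP (IsLocalRing.ResidueField A) ℓ := by
  refine (CharP.charP_iff_prime_eq_zero hℓ).mpr ?_
  rw [← map_natCast (IsLocalRing.residue A), IsLocalRing.residue_eq_zero_iff,
    IsLocalRing.mem_maximalIdeal]
  exact ValuationSubring.coe_mem_nonunits_iff.mp (by push_cast; exact hA)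

variable {r : Place (AlgebraicClosure ℚ) (modularFunctionFieldBar N) →
  Place (IsLocalRing.ResidueField A) (modularFunctionFieldFullC (IsLocalRing.ResidueField A) N)}

omit [NeZero N] in
/-- A series reduction is a reduction of places in the sense of the Prelude. -/
theorem isPlaceReductionAlong_of_series
    (hr : IsSeriesReduction A (IsLocalRing.residue A) (modularFunctionFieldBar N)
      (modularFunctionFieldFullC (IsLocalRing.ResidueField A) N) r) :
    IsPlaceReductionAlong A (IsLocalRing.residue A) N r := ⟨hr.deg_eq, hr.compat⟩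

/-- Reduction of divisor classes along `r`. -/
def redPic
    (hr : IsSeriesReduction A (IsLocalRing.residue A) (modularFunctionFieldBar N)
      (modularFunctionFieldFullC (IsLocalRing.ResidueField A) N) r) :
    JZero N →+ JZeroC (IsLocalRing.ResidueField A) N :=
  reductionPic0Along r (isPlaceReductionAlong_of_series hr) hr.gen

omit [NeZero N] in
/-- The reduction of the class of a divisor is the class of its image. -/
theorem redPic_mk
    (hr : IsSeriesReduction A (IsLocalRing.residue A) (modularFunctionFieldBar N)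
      (modularFunctionFieldFullC (IsLocalRing.ResidueField A) N) r)
    (D : Divisor.degZero (K := AlgebraicClosure ℚ) (F := modularFunctionFieldBar N)) :
    redPic hr (Pic0.mk D) =
      Pic0.mk (reductionDegZeroAlong r (isPlaceReductionAlong_of_series hr).1 D) := rfl

variable (hr : IsSeriesReduction A (IsLocalRing.residue A) (modularFunctionFieldBar N)
  (modularFunctionFieldFullC (IsLocalRing.ResidueField A) N) r)
include hr

omit [NeZero N] in
/-- Reduction commutes with the decomposition group, acting through the residue field. -/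
theorem redPic_galois (hdiv : PicDivisible (AlgebraicClosure ℚ) (modularFunctionFieldBar N))
    {σ : AlgebraicClosure ℚ ≃ₐ[ℚ] AlgebraicClosure ℚ} (hσ : σ ∈ A.decompositionSubgroup ℚ)
    {τ : (IsLocalRing.ResidueField A) ≃+* (IsLocalRing.ResidueField A)} (hτ : residueAut hσ = τ)
    (x : JZero N) :
    redPic hr (σ • x) = coeffAutFull τ N • redPic hr x := by
  obtain ⟨D, rfl⟩ := Pic0.mk_surjective x
  rw [galois_smul_pic0_def, SemilinearAut.pic0_smul_mk, redPic_mk, redPic_mk,
    SemilinearAut.pic0_smul_mk]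
  exact congrArg Pic0.mk (Subtype.ext (hr.mapDomain_smul hdiv
    (intertwines_arithmeticGalois _ hσ hτ fun _ => rfl) (Divisor.mem_degZero.mp D.2)))

variable [Fact ℓ.Prime] [CharP (IsLocalRing.ResidueField A) ℓ]
  [PerfectRing (IsLocalRing.ResidueField A) ℓ]

/-- The Eichler-Shimura congruence on divisors. -/
theorem mapDomain_pushPull (hdiv : PicDivisible (AlgebraicClosure ℚ) (modularFunctionFieldBar N))
    (hℓN : ¬ ℓ ∣ N) {D : Divisor (AlgebraicClosure ℚ) (modularFunctionFieldBar N)}
    (hD : Divisor.degree D = 0) :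
    haveI : NeZero ℓ := ⟨(Fact.out : ℓ.Prime).ne_zero⟩
    haveI : FF.IsFunctionField (AlgebraicClosure ℚ) (MC.FN (N * ℓ) (AlgebraicClosure ℚ)) :=
      MC.isFunctionField_FN (N * ℓ) JAC.X0.embC
    Finsupp.mapDomain r (JAC.pushDiv (heckeAlphaBar (AlgebraicClosure ℚ) N ℓ)
        (JAC.pullDiv (heckeBetaBar (AlgebraicClosure ℚ) N ℓ) D)) =
      ℓ • ((coeffAutFull (frobeniusEquiv (IsLocalRing.ResidueField A) ℓ) N)⁻¹ •
        Finsupp.mapDomain r D) +
        coeffAutFull (frobeniusEquiv (IsLocalRing.ResidueField A) ℓ) N • Finsupp.mapDomain r D := by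
  have hℓ : ℓ.Prime := Fact.out
  have : NeZero ℓ := ⟨hℓ.ne_zero⟩
  have : FF.IsFunctionField (AlgebraicClosure ℚ) (MC.FN (N * ℓ) (AlgebraicClosure ℚ)) :=
    MC.isFunctionField_FN (N * ℓ) JAC.X0.embC
  set g := coeffAutFull (frobeniusEquiv (IsLocalRing.ResidueField A) ℓ) N
  set α := heckeAlphaBar (AlgebraicClosure ℚ) N ℓ
  set β := heckeBetaBar (AlgebraicClosure ℚ) N ℓ
  have key := hr.mapDomain_correspondence hdiv ((JAC.pushDiv α).comp (JAC.pullDiv β))
    (fun f => JAC.normAlong α (β f)) ℓ g 1
    (fun E f hf hE P => by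
      rw [AddMonoidHom.comp_apply,
        show E = FF.divOf (AlgebraicClosure ℚ) f from
          Finsupp.ext fun Q => (hE Q).trans (FF.divOf_apply f Q).symm,
        JAC.pullDiv_divOf, JAC.pushDiv_divOf α ((_root_.map_ne_zero _).mpr hf), FF.divOf_apply])
    (fun f y z hf hz _ => by
      obtain ⟨y', h1, h2⟩ := CongX0.exists_reduction_normAlong (π := IsLocalRing.residue A) N A hℓ
        hℓN f y hf
      refine ⟨y', h1, ?_⟩
      rw [one_smul, coe_frobenius_norm g (fun _ => rfl) z z, hz, h2])
    hD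
  rwa [one_smul] at key

/-- The Eichler-Shimura congruence on divisor classes. -/
theorem redPic_hecke (hdiv : PicDivisible (AlgebraicClosure ℚ) (modularFunctionFieldBar N))
    (hℓN : ¬ ℓ ∣ N) (x : JZero N) :
    redPic hr (heckeOperatorBar N ⟨ℓ, Fact.out⟩ x) =
      ℓ • ((coeffAutFull (frobeniusEquiv (IsLocalRing.ResidueField A) ℓ) N)⁻¹ • redPic hr x) +
        coeffAutFull (frobeniusEquiv (IsLocalRing.ResidueField A) ℓ) N • redPic hr x := by
  have : NeZero ℓ := ⟨(Fact.out : ℓ.Prime).ne_zero⟩
  have : FF.IsFunctionField (AlgebraicClosure ℚ) (MC.FN (N * ℓ) (AlgebraicClosure ℚ)) :=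
    MC.isFunctionField_FN (N * ℓ) JAC.X0.embC
  obtain ⟨D, rfl⟩ := Pic0.mk_surjective x
  have hD := Divisor.mem_degZero.mp D.2
  have hpull : JAC.pullDiv (heckeBetaBar (AlgebraicClosure ℚ) N ℓ)
      (D : Divisor (AlgebraicClosure ℚ) (modularFunctionFieldBar N)) ∈ Divisor.degZero := by
    rw [Divisor.mem_degZero, JAC.degree_pullDiv, hD, mul_zero]
  have hpush : JAC.pushDiv (heckeAlphaBar (AlgebraicClosure ℚ) N ℓ)
      (JAC.pullDiv (heckeBetaBar (AlgebraicClosure ℚ) N ℓ)
        (D : Divisor (AlgebraicClosure ℚ) (modularFunctionFieldBar N))) ∈ Divisor.degZero := by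
    rw [Divisor.mem_degZero, JAC.degree_pushDiv]
    exact Divisor.mem_degZero.mp hpull
  refine (congrArg (redPic hr)
    (JAC.X0.heckeOperatorBar_eq N (⟨ℓ, Fact.out⟩ : Nat.Primes) (Pic0.mk D))).trans ?_
  refine (congrArg (redPic hr) ((congrArg (JAC.pushPic (heckeAlphaBar (AlgebraicClosure ℚ) N ℓ))
    (JAC.pullPic_mk (heckeBetaBar (AlgebraicClosure ℚ) N ℓ) D hpull)).trans
    (JAC.pushPic_mk (heckeAlphaBar (AlgebraicClosure ℚ) N ℓ) ⟨_, hpull⟩ hpush))).trans ?_
  rw [redPic_mk hr ⟨_, hpush⟩, redPic_mk hr D]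
  exact congrArg Pic0.mk (Subtype.ext (mapDomain_pushPull hr hdiv hℓN hD))

end Fermat.RED
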