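import Fermat.Agent.RED.Spec.X0
import Fermat.Agent.CFT.Density.Places

/-!
# The specialisation of `J₀(N)` with the Eichler-Shimura relation

The quotient by the classes all of whose Hecke translates reduce to zero satisfies `F² - T_ℓ F + ℓ
= 0`; so divisibility of `Pic⁰` gives `SpecializationExists`.
-/

set_option autoImplicit false

attribute [local instance 10000] SubalgebraClass.toAlgebra HahnSeries.powerSeriesAlgebra

noncomputable section

open ModularCurve AlgebraicCurve

namespace Fermat.RED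

variable {N : ℕ} [NeZero N] {A : ValuationSubring (AlgebraicClosure ℚ)}
variable {k : Type*} [Field k]

/-- The identity on constants gives the identity. -/
theorem coeffAutFull_refl (M : ℕ) : coeffAutFull (RingEquiv.refl k) M = 1 :=
  Subtype.ext (Prod.ext (RingEquiv.ext fun _ => Subtype.ext (coeffMap_id _)) rfl)

variable {J G : Type*} [AddCommGroup J] [Module HeckeAlg J] [AddCommGroup G] (red : J →+ G)

/-- The classes all of whose Hecke translates reduce to zero. -/
def heckeKer : Submodule HeckeAlg J where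
  carrier := {x | ∀ t : HeckeAlg, red (t • x) = 0}
  add_mem' hx hy t := by rw [smul_add, map_add, hx t, hy t, add_zero]
  zero_mem' t := by rw [smul_zero, map_zero]
  smul_mem' s x hx t := by rw [smul_smul]; exact hx (t * s)

/-- Equality modulo the Hecke kernel: all Hecke translates have the same reduction. -/
theorem mkQ_eq_iff {x y : J} :
    (heckeKer red).mkQ x = (heckeKer red).mkQ y ↔ ∀ t : HeckeAlg, red (t • x) = red (t • y) := by
  rw [Submodule.mkQ_apply, Submodule.mkQ_apply, Submodule.Quotient.eq]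
  exact forall_congr' fun t => by rw [smul_sub, map_sub, sub_eq_zero]

/-- A semilinear automorphism fixes the zero class. -/
theorem pic0_smul_zero {K F : Type*} [Field K] [Field F] [Algebra K F] (g : SemilinearAut K F) :
    g • (0 : Pic0 K F) = 0 := smul_zero (A := Pic0 K F) g

/-- The relation of Eichler and Shimura modulo the Hecke kernel. -/
theorem relation_mem_heckeKer (s : J → J) (hs : ∀ (t : HeckeAlg) (x : J), s (t • x) = t • s x)
    (g gi : G → G) (hgi : ∀ a, gi (g a) = a) (hF : ∀ x, red (s x) = g (red x)) (ℓ : ℕ)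
    (T : HeckeAlg) (hT : ∀ x, red (T • x) = ℓ • gi (red x) + g (red x)) (x : J) :
    s (s x) - T • s x + ℓ • x ∈ heckeKer red := by
  intro t
  have h1 : t • s (s x) = s (s (t • x)) := by rw [hs, hs]
  have h2 : t • T • s x = T • s (t • x) := by rw [hs, smul_smul, smul_smul, mul_comm]
  rw [smul_add, smul_sub, smul_comm t ℓ x, h1, h2, map_add, map_sub, map_nsmul, hT, hF, hF, hgi]
  abel

/-- Divisibility of `Pic⁰` gives the specialisation with the Eichler–Shimura relation. -/
theorem specializationExists_of_divisible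
    (hdiv : PicDivisible (AlgebraicClosure ℚ) (modularFunctionFieldBar N)) (p : ℕ)
    (hcomm : HeckeOperatorsCommuteBar N) :
    letI := heckeModuleBar N
    ∀ (_ : SMulCommClass (AlgebraicClosure ℚ ≃ₐ[ℚ] AlgebraicClosure ℚ) HeckeAlg (JZero N)),
      SpecializationExists (K := ℚ) (L := AlgebraicClosure ℚ) N p (JZero N) := by
  let := heckeModuleBar N
  intro hsmul ℓ hℓ hℓNp A hA
  have hℓN : ¬ ℓ ∣ N := fun h => hℓNp (h.mul_right p)
  have hℓp : ¬ ℓ ∣ p := fun h => hℓNp (h.mul_left N)
  have : Fact ℓ.Prime := ⟨hℓ⟩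
  have := Model.isAlgClosed_residue A
  have := charP_residue hℓ hA
  -- the target is `J₀(N)` modulo the Hecke kernel, with `F` a fixed Frobenius element
  obtain ⟨r, hr⟩ := exists_seriesReduction_modL N hℓ hℓN A hA
  obtain ⟨σ₀, hσ₀⟩ := Fermat.CFT.exists_isFrobeniusAt hℓ hA
  set red := redPic hr
  set g := coeffAutFull (frobeniusEquiv (IsLocalRing.ResidueField A) ℓ) N
  have hFrob : ∀ σ : AlgebraicClosure ℚ ≃ₐ[ℚ] AlgebraicClosure ℚ, A.IsFrobeniusAt σ ℓ →
      ∀ x, red (σ • x) = g • red x := fun σ hσ x =>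
    redPic_galois hr hdiv hσ.mem_decompositionSubgroup (residueAut_eq_frobenius hσ) x
  let K := heckeKer red
  let lin : JZero N →ₗ[HeckeAlg] JZero N :=
    { toFun := fun x => σ₀ • x
      map_add' := smul_add σ₀
      map_smul' := fun t x => smul_comm σ₀ t x }
  have hlin : K ≤ K.comap lin := fun x hx t => by
    change red (t • σ₀ • x) = 0
    rw [← smul_comm σ₀ t x, hFrob σ₀ hσ₀]
    exact (congrArg (g • ·) (hx t)).trans (pic0_smul_zero g)
  refine ⟨JZero N ⧸ K, inferInstance, inferInstance, K.mkQ.toAddMonoidHom,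
    (K.mapQ K lin hlin).toAddMonoidHom, ⟨fun t x => map_smul K.mkQ t x, fun σ hσ x => ?_,
      fun σ hσ x => ?_, fun x ⟨n, hn⟩ hx => ?_⟩, fun y => ?_⟩
  -- inertia is trivial, Frobenius elements act as `F`
  · obtain ⟨hdec, hres⟩ := residueAut_eq_refl hσ
    refine (mkQ_eq_iff red).mpr fun t => ?_
    rw [← smul_comm σ t x, show red (σ • t • x) = coeffAutFull (RingEquiv.refl _) N • red (t • x)
      from redPic_galois hr hdiv hdec hres _, coeffAutFull_refl, one_smul]
  · refine (mkQ_eq_iff red).mpr fun t => ?_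
    change red (t • σ • x) = red (t • σ₀ • x)
    rw [← smul_comm σ t x, ← smul_comm σ₀ t x, hFrob σ hσ, hFrob σ₀ hσ₀]
  -- reduction is injective on torsion of `p`-power order
  · have h1 : red ((1 : HeckeAlg) • x) = 0 := (Submodule.Quotient.mk_eq_zero K).mp hx 1
    rw [one_smul] at h1
    obtain ⟨D, rfl⟩ := Pic0.mk_surjective x
    rw [redPic_mk, Pic0.mk, QuotientAddGroup.eq_zero_iff, AddSubgroup.mem_addSubgroupOf,
      coe_reductionDegZeroAlong] at h1
    rw [Pic0.mk, ← QuotientAddGroup.mk_nsmul, QuotientAddGroup.eq_zero_iff,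
      AddSubgroup.mem_addSubgroupOf, AddSubgroupClass.coe_nsmul] at hn
    rw [Pic0.mk, QuotientAddGroup.eq_zero_iff, AddSubgroup.mem_addSubgroupOf]
    exact hr.torsion (p ^ n) (Model.natCast_ne_zero_residue A hℓ hA
      fun h => hℓp (hℓ.dvd_of_dvd_pow h)) D (Divisor.mem_degZero.mp D.2) hn h1
  -- the Eichler–Shimura relation
  · obtain ⟨x, rfl⟩ := Submodule.mkQ_surjective K y
    change K.mkQ (σ₀ • σ₀ • x) - heckeGen ⟨ℓ, hℓ⟩ • K.mkQ (σ₀ • x) + ℓ • K.mkQ x = 0
    rw [← map_smul, ← map_sub, ← map_nsmul, ← map_add, Submodule.mkQ_apply,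
      Submodule.Quotient.mk_eq_zero]
    exact relation_mem_heckeKer red (σ₀ • ·) (fun t x => smul_comm σ₀ t x) (g • ·) (g⁻¹ • ·)
      (inv_smul_smul g) (hFrob σ₀ hσ₀) ℓ _
      (fun z => (congrArg red (heckeModuleBar_heckeGen_smul hcomm _ z)).trans
        (redPic_hecke hr hdiv hℓN z)) x

end Fermat.RED
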